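/-
Fermat/Agent/Jac/Riemann4/SnakeLA.lean  (helper4, brick A2 Riemann)

Pure linear algebra: the six-term exact sequence attached to a short exact sequence of two-term
complexes of modules, and the additivity of the index (Euler characteristic) over a field.

```
0 → M₁ -f₁→ M₂ -f₂→ M₃ → 0
     |i₁     |i₂     |i₃
0 → N₁ -g₁→ N₂ -g₂→ N₃ → 0
```
gives `0 → ker i₁ → ker i₂ → ker i₃ -δ→ coker i₁ → coker i₂ → coker i₃ → 0`.
The connecting map is Mathlib's `SnakeLemma.δ'`.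
-/
import Mathlib

set_option autoImplicit false

namespace Fermat.Agent.Jac.Riemann4.SnakeLA

open Function LinearMap

variable {R : Type*} [CommRing R] {M₁ M₂ M₃ N₁ N₂ N₃ : Type*}
  [AddCommGroup M₁] [Module R M₁] [AddCommGroup M₂] [Module R M₂] [AddCommGroup M₃] [Module R M₃]
  [AddCommGroup N₁] [Module R N₁] [AddCommGroup N₂] [Module R N₂] [AddCommGroup N₃] [Module R N₃]

/-- The map induced on kernels by a commutative square. -/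
def kerMap (i : M₁ →ₗ[R] N₁) (j : M₂ →ₗ[R] N₂) (f : M₁ →ₗ[R] M₂) (g : N₁ →ₗ[R] N₂)
    (h : g.comp i = j.comp f) : LinearMap.ker i →ₗ[R] LinearMap.ker j :=
  LinearMap.codRestrict _ (f.comp (LinearMap.ker i).subtype) (fun x => by
    have hx : i x.1 = 0 := x.2
    have := DFunLike.congr_fun h x.1
    simp only [LinearMap.comp_apply] at this
    simp [LinearMap.mem_ker, ← this, hx])

@[simp] lemma kerMap_coe (i : M₁ →ₗ[R] N₁) (j : M₂ →ₗ[R] N₂) (f : M₁ →ₗ[R] M₂) (g : N₁ →ₗ[R] N₂)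
    (h : g.comp i = j.comp f) (x : LinearMap.ker i) : (kerMap i j f g h x : M₂) = f x.1 := rfl

/-- The map induced on cokernels by a commutative square. -/
def cokerMap (i : M₁ →ₗ[R] N₁) (j : M₂ →ₗ[R] N₂) (f : M₁ →ₗ[R] M₂) (g : N₁ →ₗ[R] N₂)
    (h : g.comp i = j.comp f) : (N₁ ⧸ LinearMap.range i) →ₗ[R] (N₂ ⧸ LinearMap.range j) :=
  Submodule.mapQ _ _ g (by
    rintro _ ⟨x, rfl⟩
    have := DFunLike.congr_fun h x
    simp only [LinearMap.comp_apply] at this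
    exact ⟨f x, this.symm⟩)

@[simp] lemma cokerMap_mk (i : M₁ →ₗ[R] N₁) (j : M₂ →ₗ[R] N₂) (f : M₁ →ₗ[R] M₂) (g : N₁ →ₗ[R] N₂)
    (h : g.comp i = j.comp f) (x : N₁) :
    cokerMap i j f g h (Submodule.Quotient.mk x) = Submodule.Quotient.mk (g x) := rfl

section Six

variable (i₁ : M₁ →ₗ[R] N₁) (i₂ : M₂ →ₗ[R] N₂) (i₃ : M₃ →ₗ[R] N₃)
  (f₁ : M₁ →ₗ[R] M₂) (f₂ : M₂ →ₗ[R] M₃) (hf : Exact f₁ f₂)
  (g₁ : N₁ →ₗ[R] N₂) (g₂ : N₂ →ₗ[R] N₃) (hg : Exact g₁ g₂)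
  (h₁ : g₁.comp i₁ = i₂.comp f₁) (h₂ : g₂.comp i₂ = i₃.comp f₂)
  (hf₁ : Injective f₁) (hf₂ : Surjective f₂) (hg₁ : Injective g₁) (hg₂ : Surjective g₂)

include hf₁ in
/-- Exactness at `ker i₁`. -/
lemma kerMap_injective : Injective (kerMap i₁ i₂ f₁ g₁ h₁) := by
  intro x y hxy
  apply Subtype.ext
  apply hf₁
  exact congrArg Subtype.val hxy

include hf hg₁ in
/-- Exactness at `ker i₂`. -/
lemma exact_kerMap_kerMap : Exact (kerMap i₁ i₂ f₁ g₁ h₁) (kerMap i₂ i₃ f₂ g₂ h₂) := by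
  intro y
  constructor
  · intro hy
    have hy' : f₂ y.1 = 0 := congrArg Subtype.val hy
    obtain ⟨x, hx⟩ := (hf y.1).1 hy'
    have hix : i₁ x = 0 := by
      apply hg₁
      have := DFunLike.congr_fun h₁ x
      simp only [LinearMap.comp_apply] at this
      rw [this, hx, map_zero]
      exact y.2
    exact ⟨⟨x, hix⟩, Subtype.ext hx⟩
  · rintro ⟨x, rfl⟩
    apply Subtype.ext
    exact hf.apply_apply_eq_zero x.1

/-- The connecting homomorphism `ker i₃ → coker i₁`. -/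
noncomputable def δ : LinearMap.ker i₃ →ₗ[R] (N₁ ⧸ LinearMap.range i₁) :=
  SnakeLemma.δ' i₁ i₂ i₃ f₁ f₂ hf g₁ g₂ hg h₁ h₂ (LinearMap.ker i₃).subtype
    (LinearMap.exact_subtype_ker_map i₃) (LinearMap.range i₁).mkQ
    (LinearMap.exact_map_mkQ_range i₁) hf₂ hg₁

lemma δ_eq (x : LinearMap.ker i₃) (y : M₂) (hy : f₂ y = x.1) (z : N₁) (hz : g₁ z = i₂ y) :
    δ i₁ i₂ i₃ f₁ f₂ hf g₁ g₂ hg h₁ h₂ hf₂ hg₁ x = Submodule.Quotient.mk z :=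
  SnakeLemma.δ'_eq i₁ i₂ i₃ f₁ f₂ hf g₁ g₂ hg h₁ h₂ (LinearMap.ker i₃).subtype
    (LinearMap.exact_subtype_ker_map i₃) (LinearMap.range i₁).mkQ
    (LinearMap.exact_map_mkQ_range i₁) hf₂ hg₁ x y hy z hz

/-- Exactness at `ker i₃`. -/
lemma exact_kerMap_δ :
    Exact (kerMap i₂ i₃ f₂ g₂ h₂) (δ i₁ i₂ i₃ f₁ f₂ hf g₁ g₂ hg h₁ h₂ hf₂ hg₁) :=
  SnakeLemma.exact_δ'_right i₁ i₂ i₃ f₁ f₂ hf g₁ g₂ hg h₁ h₂ (LinearMap.ker i₂).subtype
    (LinearMap.exact_subtype_ker_map i₂) (LinearMap.ker i₃).subtype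
    (LinearMap.exact_subtype_ker_map i₃) (LinearMap.range i₁).mkQ
    (LinearMap.exact_map_mkQ_range i₁) hf₂ hg₁ (kerMap i₂ i₃ f₂ g₂ h₂) (by ext x; rfl)
    (Submodule.injective_subtype _)

/-- Exactness at `coker i₁`. -/
lemma exact_δ_cokerMap :
    Exact (δ i₁ i₂ i₃ f₁ f₂ hf g₁ g₂ hg h₁ h₂ hf₂ hg₁) (cokerMap i₁ i₂ f₁ g₁ h₁) :=
  SnakeLemma.exact_δ'_left i₁ i₂ i₃ f₁ f₂ hf g₁ g₂ hg h₁ h₂ (LinearMap.ker i₃).subtype
    (LinearMap.exact_subtype_ker_map i₃) (LinearMap.range i₁).mkQ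
    (LinearMap.exact_map_mkQ_range i₁) (LinearMap.range i₂).mkQ
    (LinearMap.exact_map_mkQ_range i₂) hf₂ hg₁ (cokerMap i₁ i₂ f₁ g₁ h₁) (by ext x; rfl)
    (Submodule.mkQ_surjective _)

include hg hf₂ in
/-- Exactness at `coker i₂`. -/
lemma exact_cokerMap_cokerMap : Exact (cokerMap i₁ i₂ f₁ g₁ h₁) (cokerMap i₂ i₃ f₂ g₂ h₂) := by
  intro y
  obtain ⟨y, rfl⟩ := Submodule.Quotient.mk_surjective _ y
  constructor
  · intro hy
    rw [cokerMap_mk, Submodule.Quotient.mk_eq_zero] at hy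
    obtain ⟨m₃, hm₃⟩ := hy
    obtain ⟨m₂, rfl⟩ := hf₂ m₃
    have h := DFunLike.congr_fun h₂ m₂
    simp only [LinearMap.comp_apply] at h
    have hker : g₂ (y - i₂ m₂) = 0 := by rw [map_sub, h, hm₃, sub_self]
    obtain ⟨z, hz⟩ := (hg _).1 hker
    refine ⟨Submodule.Quotient.mk z, ?_⟩
    rw [cokerMap_mk, hz, Submodule.Quotient.mk_sub, sub_eq_self, Submodule.Quotient.mk_eq_zero]
    exact ⟨m₂, rfl⟩
  · rintro ⟨z, hz⟩
    obtain ⟨z, rfl⟩ := Submodule.Quotient.mk_surjective _ z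
    rw [← hz, cokerMap_mk, cokerMap_mk, hg.apply_apply_eq_zero, Submodule.Quotient.mk_zero]

include hg₂ in
/-- Exactness at `coker i₃`. -/
lemma cokerMap_surjective : Surjective (cokerMap i₂ i₃ f₂ g₂ h₂) := by
  intro y
  obtain ⟨y, rfl⟩ := Submodule.Quotient.mk_surjective _ y
  obtain ⟨x, rfl⟩ := hg₂ y
  exact ⟨Submodule.Quotient.mk x, rfl⟩

end Six

end Fermat.Agent.Jac.Riemann4.SnakeLA

namespace Fermat.Agent.Jac.Riemann4.SnakeLA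

open Function LinearMap Module

section Dim

variable {K : Type*} [Field K]

/-- Rank-nullity along an exact sequence `A → B → C`. -/
lemma finrank_eq_of_exact {A B C : Type*} [AddCommGroup A] [Module K A] [AddCommGroup B]
    [Module K B] [AddCommGroup C] [Module K C] [FiniteDimensional K B]
    (f : A →ₗ[K] B) (g : B →ₗ[K] C) (h : Exact f g) :
    finrank K B = finrank K (LinearMap.range f) + finrank K (LinearMap.range g) := by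
  rw [← LinearMap.finrank_range_add_finrank_ker g, h.linearMap_ker_eq, add_comm]

/-- The alternating sum of dimensions along a six-term exact sequence
`0 → A₁ → A₂ → A₃ → A₄ → A₅ → A₆ → 0` vanishes. -/
theorem finrank_six_term {A₁ A₂ A₃ A₄ A₅ A₆ : Type*}
    [AddCommGroup A₁] [Module K A₁] [AddCommGroup A₂] [Module K A₂]
    [AddCommGroup A₃] [Module K A₃] [AddCommGroup A₄] [Module K A₄]
    [AddCommGroup A₅] [Module K A₅] [AddCommGroup A₆] [Module K A₆]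
    [FiniteDimensional K A₂] [FiniteDimensional K A₃] [FiniteDimensional K A₄]
    [FiniteDimensional K A₅]
    (φ₁ : A₁ →ₗ[K] A₂) (φ₂ : A₂ →ₗ[K] A₃) (φ₃ : A₃ →ₗ[K] A₄) (φ₄ : A₄ →ₗ[K] A₅)
    (φ₅ : A₅ →ₗ[K] A₆) (h₁ : Injective φ₁) (h₂ : Exact φ₁ φ₂) (h₃ : Exact φ₂ φ₃)
    (h₄ : Exact φ₃ φ₄) (h₅ : Exact φ₄ φ₅) (h₆ : Surjective φ₅) :
    finrank K A₁ + finrank K A₃ + finrank K A₅ = finrank K A₂ + finrank K A₄ + finrank K A₆ := by
  have e1 : finrank K (LinearMap.range φ₁) = finrank K A₁ := LinearMap.finrank_range_of_inj h₁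
  have e6 : finrank K (LinearMap.range φ₅) = finrank K A₆ := by
    rw [LinearMap.range_eq_top.2 h₆, finrank_top]
  have e2 := finrank_eq_of_exact φ₁ φ₂ h₂
  have e3 := finrank_eq_of_exact φ₂ φ₃ h₃
  have e4 := finrank_eq_of_exact φ₃ φ₄ h₄
  have e5 := finrank_eq_of_exact φ₄ φ₅ h₅
  omega

end Dim

section SixDim

variable {K : Type*} [Field K] {M₁ M₂ M₃ N₁ N₂ N₃ : Type*}
  [AddCommGroup M₁] [Module K M₁] [AddCommGroup M₂] [Module K M₂] [AddCommGroup M₃] [Module K M₃]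
  [AddCommGroup N₁] [Module K N₁] [AddCommGroup N₂] [Module K N₂] [AddCommGroup N₃] [Module K N₃]
  (i₁ : M₁ →ₗ[K] N₁) (i₂ : M₂ →ₗ[K] N₂) (i₃ : M₃ →ₗ[K] N₃)
  (f₁ : M₁ →ₗ[K] M₂) (f₂ : M₂ →ₗ[K] M₃) (hf : Exact f₁ f₂)
  (g₁ : N₁ →ₗ[K] N₂) (g₂ : N₂ →ₗ[K] N₃) (hg : Exact g₁ g₂)
  (h₁ : g₁.comp i₁ = i₂.comp f₁) (h₂ : g₂.comp i₂ = i₃.comp f₂)
  (hf₁ : Injective f₁) (hf₂ : Surjective f₂) (hg₁ : Injective g₁) (hg₂ : Surjective g₂)

include hf hg h₁ h₂ hf₁ hf₂ hg₁ hg₂ in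
/-- **Additivity of the index** in a short exact sequence of two-term complexes of vector spaces:
`dim ker i₁ + dim ker i₃ + dim coker i₂ = dim ker i₂ + dim coker i₁ + dim coker i₃`. -/
theorem finrank_ker_coker
    [FiniteDimensional K (LinearMap.ker i₂)] [FiniteDimensional K (LinearMap.ker i₃)]
    [FiniteDimensional K (N₁ ⧸ LinearMap.range i₁)] [FiniteDimensional K (N₂ ⧸ LinearMap.range i₂)] :
    finrank K (LinearMap.ker i₁) + finrank K (LinearMap.ker i₃)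
        + finrank K (N₂ ⧸ LinearMap.range i₂)
      = finrank K (LinearMap.ker i₂) + finrank K (N₁ ⧸ LinearMap.range i₁)
        + finrank K (N₃ ⧸ LinearMap.range i₃) :=
  finrank_six_term (kerMap i₁ i₂ f₁ g₁ h₁) (kerMap i₂ i₃ f₂ g₂ h₂)
    (δ i₁ i₂ i₃ f₁ f₂ hf g₁ g₂ hg h₁ h₂ hf₂ hg₁) (cokerMap i₁ i₂ f₁ g₁ h₁)
    (cokerMap i₂ i₃ f₂ g₂ h₂)
    (kerMap_injective i₁ i₂ f₁ g₁ h₁ hf₁)
    (exact_kerMap_kerMap i₁ i₂ i₃ f₁ f₂ hf g₁ g₂ h₁ h₂ hg₁)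
    (exact_kerMap_δ i₁ i₂ i₃ f₁ f₂ hf g₁ g₂ hg h₁ h₂ hf₂ hg₁)
    (exact_δ_cokerMap i₁ i₂ i₃ f₁ f₂ hf g₁ g₂ hg h₁ h₂ hf₂ hg₁)
    (exact_cokerMap_cokerMap i₁ i₂ i₃ f₁ f₂ g₁ g₂ hg h₁ h₂ hf₂)
    (cokerMap_surjective i₂ i₃ f₂ g₂ h₂ hg₂)

end SixDim

end Fermat.Agent.Jac.Riemann4.SnakeLA
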