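/-
Fermat/Agent/Jac/Riemann4/Basic.lean  (helper4, brick A2 Riemann)

Morphisms of two-chart modules act on the Čech complex; short exact sequences of two-chart modules
give a six-term exact cohomology sequence; the Euler characteristic is additive.
-/
import Fermat.Agent.Jac.Core
import Fermat.Agent.Jac.Riemann4.SnakeLA

set_option autoImplicit false
set_option linter.unusedSectionVars false

universe u

namespace Fermat.Agent.Jac.Riemann4.Basic

open Function Module Fermat.Agent.Jac Fermat.Agent.Jac.Riemann4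

variable {A R0 R1 R01 : Type u} [CommRing A] [CommRing R0] [CommRing R1] [CommRing R01]
  [Algebra A R0] [Algebra A R1] [Algebra A R01] [Algebra R0 R01] [Algebra R1 R01]
  [IsScalarTower A R0 R01] [IsScalarTower A R1 R01]

section Maps

variable {L M Q : QC2 A R0 R1 R01}

/-- The `A`-linear map induced on pairs of chart sections. -/
def prodMap (f : QC2.Hom L M) : (L.N0 × L.N1) →ₗ[A] (M.N0 × M.N1) :=
  (f.f0.restrictScalars A).prodMap (f.f1.restrictScalars A)

@[simp] lemma prodMap_apply (f : QC2.Hom L M) (x : L.N0 × L.N1) :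
    prodMap f x = (f.f0 x.1, f.f1 x.2) := rfl

/-- The `A`-linear map induced on overlap sections. -/
def map01 (f : QC2.Hom L M) : L.N01 →ₗ[A] M.N01 := f.f01.restrictScalars A

@[simp] lemma map01_apply (f : QC2.Hom L M) (x : L.N01) : map01 f x = f.f01 x := rfl

lemma d_apply (L : QC2 A R0 R1 R01) (x : L.N0 × L.N1) : L.d x = L.r0 x.1 - L.r1 x.2 := by
  simp [QC2.d, sub_eq_add_neg]

/-- A morphism of two-chart modules commutes with the Čech differentials. -/
lemma map01_comp_d (f : QC2.Hom L M) : (map01 f).comp L.d = M.d.comp (prodMap f) := by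
  ext x <;> simp [d_apply, f.comm0, f.comm1]

/-- The induced map on `H⁰`. -/
def mapH0 (f : QC2.Hom L M) : L.H0 →ₗ[A] M.H0 :=
  SnakeLA.kerMap L.d M.d (prodMap f) (map01 f) (map01_comp_d f)

@[simp] lemma mapH0_coe (f : QC2.Hom L M) (x : L.H0) :
    (mapH0 f x : M.N0 × M.N1) = (f.f0 x.1.1, f.f1 x.1.2) := rfl

/-- The induced map on `H¹`. -/
def mapH1 (f : QC2.Hom L M) : L.H1 →ₗ[A] M.H1 :=
  SnakeLA.cokerMap L.d M.d (prodMap f) (map01 f) (map01_comp_d f)

@[simp] lemma mapH1_mk (f : QC2.Hom L M) (x : L.N01) :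
    mapH1 f (Submodule.Quotient.mk x) = Submodule.Quotient.mk (f.f01 x) := rfl

/-- A short exact sequence `0 → L → M → Q → 0` of two-chart modules: exact on each of the three
charts. -/
structure ShortExact (f : QC2.Hom L M) (g : QC2.Hom M Q) : Prop where
  inj0 : Injective f.f0
  inj1 : Injective f.f1
  inj01 : Injective f.f01
  exact0 : Exact f.f0 g.f0
  exact1 : Exact f.f1 g.f1
  exact01 : Exact f.f01 g.f01
  surj0 : Surjective g.f0
  surj1 : Surjective g.f1
  surj01 : Surjective g.f01

namespace ShortExact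

variable {f : QC2.Hom L M} {g : QC2.Hom M Q} (h : ShortExact f g)

include h

lemma prodMap_injective : Injective (prodMap f) := by
  intro x y hxy
  simp only [prodMap_apply, Prod.mk.injEq] at hxy
  exact Prod.ext (h.inj0 hxy.1) (h.inj1 hxy.2)

lemma prodMap_surjective : Surjective (prodMap g) := by
  rintro ⟨y0, y1⟩
  obtain ⟨x0, rfl⟩ := h.surj0 y0
  obtain ⟨x1, rfl⟩ := h.surj1 y1
  exact ⟨(x0, x1), rfl⟩

lemma prodMap_exact : Exact (prodMap f) (prodMap g) := by
  rintro ⟨y0, y1⟩
  simp only [prodMap_apply, Prod.mk_eq_zero, Set.mem_range, Prod.exists, Prod.mk.injEq]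
  constructor
  · rintro ⟨h0, h1⟩
    obtain ⟨x0, hx0⟩ := (h.exact0 y0).1 h0
    obtain ⟨x1, hx1⟩ := (h.exact1 y1).1 h1
    exact ⟨x0, x1, hx0, hx1⟩
  · rintro ⟨x0, x1, rfl, rfl⟩
    exact ⟨h.exact0.apply_apply_eq_zero x0, h.exact1.apply_apply_eq_zero x1⟩

lemma map01_exact : Exact (map01 f) (map01 g) := h.exact01

/-- The connecting homomorphism `H⁰(Q) → H¹(L)` of a short exact sequence. -/
noncomputable def δ : Q.H0 →ₗ[A] L.H1 :=
  SnakeLA.δ L.d M.d Q.d (prodMap f) (prodMap g) h.prodMap_exact (map01 f) (map01 g) h.map01_exact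
    (map01_comp_d f) (map01_comp_d g) h.prodMap_surjective h.inj01

lemma mapH0_injective : Injective (mapH0 f) :=
  SnakeLA.kerMap_injective L.d M.d (prodMap f) (map01 f) (map01_comp_d f) h.prodMap_injective

lemma exact_mapH0_mapH0 : Exact (mapH0 f) (mapH0 g) :=
  SnakeLA.exact_kerMap_kerMap L.d M.d Q.d (prodMap f) (prodMap g) h.prodMap_exact (map01 f)
    (map01 g) (map01_comp_d f) (map01_comp_d g) h.inj01

lemma exact_mapH0_δ : Exact (mapH0 g) h.δ :=
  SnakeLA.exact_kerMap_δ L.d M.d Q.d (prodMap f) (prodMap g) h.prodMap_exact (map01 f) (map01 g)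
    h.map01_exact (map01_comp_d f) (map01_comp_d g) h.prodMap_surjective h.inj01

lemma exact_δ_mapH1 : Exact h.δ (mapH1 f) :=
  SnakeLA.exact_δ_cokerMap L.d M.d Q.d (prodMap f) (prodMap g) h.prodMap_exact (map01 f) (map01 g)
    h.map01_exact (map01_comp_d f) (map01_comp_d g) h.prodMap_surjective h.inj01

lemma exact_mapH1_mapH1 : Exact (mapH1 f) (mapH1 g) :=
  SnakeLA.exact_cokerMap_cokerMap L.d M.d Q.d (prodMap f) (prodMap g) (map01 f) (map01 g)
    h.map01_exact (map01_comp_d f) (map01_comp_d g) h.prodMap_surjective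

lemma mapH1_surjective : Surjective (mapH1 g) :=
  SnakeLA.cokerMap_surjective M.d Q.d (prodMap g) (map01 g) (map01_comp_d g) h.surj01

end ShortExact

end Maps

end Fermat.Agent.Jac.Riemann4.Basic
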