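/-
Fermat/Agent/Jac/Riemann4/LocalFD.lean  (helper4, brick A2 Riemann)

One-chart lemma ("torsion sheaves have no `H¹`"):  let `S = R[1/τ]`, let `r : N → N'` be the
localisation (base change) of an `R`-module, `W ≤ N'` an `S`-submodule and `P ≤ N` an `R`-submodule
mapping into `W` with `N ⧸ P` finite-dimensional over a field `K`.  Then `N' = W + r(N)`.

Reason: the image `V` of `N ⧸ P` in `N' ⧸ W` is a finite-dimensional subspace stable under `τ`, and
`τ` is injective on `N' ⧸ W`, hence bijective on `V`; so `V` is an `S`-submodule containing the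
image of `N`, hence everything.
-/
import Mathlib

set_option autoImplicit false

namespace Fermat.Agent.Jac.Riemann4.LocalFD

open Function Module

variable {K R S : Type*} [Field K] [CommRing R] [CommRing S] [Algebra K R] [Algebra R S]
  (τ : R) [IsLocalization.Away τ S]
  {N N' : Type*} [AddCommGroup N] [Module K N] [Module R N] [IsScalarTower K R N]
  [AddCommGroup N'] [Module K N'] [Module R N'] [Module S N'] [IsScalarTower R S N']
  [IsScalarTower K R N']

include τ in
theorem exists_sub_mem_of_finiteDimensional (r : N →ₗ[R] N') (hbc : IsBaseChange S r)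
    (W : Submodule S N') (P : Submodule R N) (hP : ∀ x ∈ P, r x ∈ W)
    [FiniteDimensional K (N ⧸ P)] (z : N') : ∃ x : N, z - r x ∈ W := by
  classical
  -- the quotient `N' ⧸ W` as an `R`-module and the induced map from `N ⧸ P`
  let WR : Submodule R N' := W.restrictScalars R
  let φ : (N ⧸ P) →ₗ[R] (N' ⧸ WR) := P.liftQ (WR.mkQ.comp r) (by
    intro x hx
    simp only [LinearMap.mem_ker, LinearMap.comp_apply, Submodule.mkQ_apply,
      Submodule.Quotient.mk_eq_zero]
    exact hP x hx)
  let V : Submodule K (N' ⧸ WR) := LinearMap.range (φ.restrictScalars K)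
  have hVfd : FiniteDimensional K V := by
    change FiniteDimensional K (LinearMap.range (φ.restrictScalars K))
    infer_instance
  have hu : IsUnit (algebraMap R S τ) := IsLocalization.Away.algebraMap_isUnit τ
  -- multiplication by `τ` on the quotient
  let μ : (N' ⧸ WR) →ₗ[K] (N' ⧸ WR) := (LinearMap.lsmul R (N' ⧸ WR) τ).restrictScalars K
  have hμ : ∀ y, μ y = τ • y := fun y => rfl
  -- `τ` acts injectively on `N' ⧸ W`
  have hμinj : Injective μ := by
    rw [injective_iff_map_eq_zero]
    intro y hy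
    obtain ⟨y, rfl⟩ := Submodule.Quotient.mk_surjective _ y
    rw [hμ, ← Submodule.Quotient.mk_smul, Submodule.Quotient.mk_eq_zero] at hy
    rw [Submodule.Quotient.mk_eq_zero]
    have h1 : (algebraMap R S τ) • y ∈ W := by
      rw [algebraMap_smul]; exact hy
    obtain ⟨v, hv⟩ := hu
    have : (↑v⁻¹ : S) • ((algebraMap R S τ) • y) ∈ W := W.smul_mem _ h1
    rwa [← hv, smul_smul, Units.inv_mul, one_smul] at this
  have hμV : ∀ v ∈ V, μ v ∈ V := by
    rintro _ ⟨q, rfl⟩
    refine ⟨τ • q, ?_⟩
    simp only [LinearMap.restrictScalars_apply, map_smul, hμ]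
  let μV : V →ₗ[K] V := μ.restrict hμV
  have hμVinj : Injective μV := by
    intro a b hab
    apply Subtype.ext
    apply hμinj
    exact congrArg Subtype.val hab
  have hμVsurj : Surjective μV := LinearMap.injective_iff_surjective.1 hμVinj
  -- `V` is stable under division by `τ`
  have hdiv : ∀ (n : ℕ) (v : N' ⧸ WR), v ∈ V → ∃ v' ∈ V, τ ^ n • v' = v := by
    intro n
    induction n with
    | zero => intro v hv; exact ⟨v, hv, by simp⟩
    | succ n ih =>
      intro v hv
      obtain ⟨v₁, hv₁, e₁⟩ := ih v hv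
      obtain ⟨⟨v₂, hv₂⟩, e₂⟩ := hμVsurj ⟨v₁, hv₁⟩
      refine ⟨v₂, hv₂, ?_⟩
      have e₃ : τ • v₂ = v₁ := congrArg Subtype.val e₂
      rw [pow_succ, mul_smul, e₃, e₁]
  -- hence `V` is stable under `S`
  have hVS : ∀ (s : S) (y : N'), WR.mkQ y ∈ V → WR.mkQ (s • y) ∈ V := by
    intro s y hy
    obtain ⟨n, a, hna⟩ := IsLocalization.Away.surj τ s
    obtain ⟨v', hv', e⟩ := hdiv n _ hy
    obtain ⟨q, rfl⟩ := hv'
    obtain ⟨x, rfl⟩ := Submodule.Quotient.mk_surjective _ q
    -- `y ≡ τ^n • r x` modulo `W`, so `s • y ≡ a • r x`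
    refine ⟨Submodule.Quotient.mk (a • x), ?_⟩
    have e' : WR.mkQ (τ ^ n • r x) = WR.mkQ y := by
      rw [map_smul]; exact e
    have hmem : τ ^ n • r x - y ∈ W := by
      have := (Submodule.Quotient.eq WR).1 e'
      exact this
    show WR.mkQ (r (a • x)) = WR.mkQ (s • y)
    rw [Submodule.mkQ_apply, Submodule.mkQ_apply, Submodule.Quotient.eq]
    show r (a • x) - s • y ∈ W
    have h2 : s • (τ ^ n • r x - y) ∈ W := W.smul_mem s hmem
    have h3 : s • (τ ^ n • r x) = r (a • x) := by
      rw [map_smul, ← algebraMap_smul S (τ ^ n) (r x), smul_smul, map_pow, hna, algebraMap_smul]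
    rwa [smul_sub, h3] at h2
  -- induction over the base change
  have hall : ∀ y : N', WR.mkQ y ∈ V := by
    intro y
    refine hbc.inductionOn y (fun y => WR.mkQ y ∈ V) ?_ ?_ ?_ ?_
    · simp
    · intro m
      exact ⟨Submodule.Quotient.mk m, rfl⟩
    · intro s n hn
      exact hVS s n hn
    · intro n₁ n₂ h₁ h₂
      rw [map_add]
      exact V.add_mem h₁ h₂
  obtain ⟨q, hq⟩ := hall z
  obtain ⟨x, rfl⟩ := Submodule.Quotient.mk_surjective _ q
  refine ⟨x, ?_⟩
  have : WR.mkQ (r x) = WR.mkQ z := hq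
  rw [Submodule.mkQ_apply, Submodule.mkQ_apply, Submodule.Quotient.eq] at this
  have h4 : r x - z ∈ W := this
  have := W.neg_mem h4
  rwa [neg_sub] at this

end Fermat.Agent.Jac.Riemann4.LocalFD
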