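/-
Fermat/Agent/Jac/Riemann4/Modification.lean  (helper4, brick A2 Riemann)

Elementary modifications of two-chart modules over a field `K`.

* `cokerD ι` : the cokernel two-term complex of a morphism `ι : L' → L`, and the index formula
  for an injective `ι` (`Hom.finrank_formula`).
* `IsModAt m ι` : `ι : L' → L` is injective, an isomorphism away from the closed subset `V(m)` of
  the first chart, and `ι(L'.N0) = m • L.N0`  (so `L' = L(-P)` when `m` is the ideal of a point).
* Numerical consequences when `L.N0 ⧸ m L.N0` has dimension one: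
  `χ(L) = χ(L') + 1`, `H⁰(L') ↪ H⁰(L)`, `H¹(L') ↠ H¹(L)`, and the sharp statements when a global
  section of `L` does not vanish at the point.
-/
import Fermat.Agent.Jac.Riemann4.Basic
import Fermat.Agent.Jac.Riemann4.LocalFD

set_option autoImplicit false
set_option linter.unusedSectionVars false

universe u

namespace Fermat.Agent.Jac.Riemann4.Modification

open Function Module Fermat.Agent.Jac Fermat.Agent.Jac.Riemann4 Fermat.Agent.Jac.Riemann4.Basic

section General

variable {A R0 R1 R01 : Type u} [CommRing A] [CommRing R0] [CommRing R1] [CommRing R01]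
  [Algebra A R0] [Algebra A R1] [Algebra A R01] [Algebra R0 R01] [Algebra R1 R01]
  [IsScalarTower A R0 R01] [IsScalarTower A R1 R01]
  {L' L : QC2 A R0 R1 R01}

/-- Chart part of the cokernel complex of `ι`. -/
abbrev Coker2 (ι : QC2.Hom L' L) : Type u := (L.N0 × L.N1) ⧸ LinearMap.range (prodMap ι)

/-- Overlap part of the cokernel complex of `ι`. -/
abbrev Coker01 (ι : QC2.Hom L' L) : Type u := L.N01 ⧸ LinearMap.range (map01 ι)

/-- The differential of the cokernel complex of `ι`. -/
def cokerD (ι : QC2.Hom L' L) : Coker2 ι →ₗ[A] Coker01 ι :=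
  Submodule.mapQ _ _ L.d (by
    rintro _ ⟨x, rfl⟩
    exact ⟨L'.d x, DFunLike.congr_fun (map01_comp_d ι) x⟩)

@[simp] lemma cokerD_mk (ι : QC2.Hom L' L) (x : L.N0 × L.N1) :
    cokerD ι (Submodule.Quotient.mk x) = Submodule.Quotient.mk (L.d x) := rfl

lemma prodMap_injective_of (ι : QC2.Hom L' L) (h0 : Injective ι.f0) (h1 : Injective ι.f1) :
    Injective (prodMap ι) := by
  intro x y hxy
  simp only [prodMap_apply, Prod.mk.injEq] at hxy
  exact Prod.ext (h0 hxy.1) (h1 hxy.2)

end General

section Field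

variable {K R0 R1 R01 : Type u} [Field K] [CommRing R0] [CommRing R1] [CommRing R01]
  [Algebra K R0] [Algebra K R1] [Algebra K R01] [Algebra R0 R01] [Algebra R1 R01]
  [IsScalarTower K R0 R01] [IsScalarTower K R1 R01]
  {L' L : QC2 K R0 R1 R01}

/-- **Index formula** for an injective morphism `ι : L' → L` of two-chart modules over a field:
`h⁰(L') + dim ker(coker complex) + h¹(L) = h⁰(L) + h¹(L') + dim coker(coker complex)`. -/
theorem Hom.finrank_formula (ι : QC2.Hom L' L) (h0 : Injective ι.f0) (h1 : Injective ι.f1)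
    (h01 : Injective ι.f01)
    [FiniteDimensional K L.H0] [FiniteDimensional K L.H1] [FiniteDimensional K L'.H1]
    [FiniteDimensional K (LinearMap.ker (cokerD ι))] :
    finrank K L'.H0 + finrank K (LinearMap.ker (cokerD ι)) + finrank K L.H1
      = finrank K L.H0 + finrank K L'.H1
        + finrank K (Coker01 ι ⧸ LinearMap.range (cokerD ι)) := by
  have : FiniteDimensional K (LinearMap.ker L.d) := ‹FiniteDimensional K L.H0›
  exact SnakeLA.finrank_ker_coker L'.d L.d (cokerD ι) (prodMap ι)
    (LinearMap.range (prodMap ι)).mkQ (LinearMap.exact_map_mkQ_range _) (map01 ι)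
    (LinearMap.range (map01 ι)).mkQ (LinearMap.exact_map_mkQ_range _) (map01_comp_d ι)
    (by ext x <;> rfl) (prodMap_injective_of ι h0 h1) (Submodule.mkQ_surjective _) h01
    (Submodule.mkQ_surjective _)

/-- `ι : L' → L` is an *elementary modification along the ideal `m` of the first chart*:
`ι` is injective on all charts, its image on the first chart is `m • L.N0`, and on the second
chart `L'` is the full preimage of its overlap part (i.e. nothing changes away from `V(m)`). -/
structure IsModAt (m : Ideal R0) (ι : QC2.Hom L' L) : Prop where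
  inj0 : Injective ι.f0
  inj1 : Injective ι.f1
  inj01 : Injective ι.f01
  range0 : LinearMap.range ι.f0 = m • (⊤ : Submodule R0 L.N0)
  cart1 : ∀ x : L.N1, L.r1 x ∈ LinearMap.range ι.f01 → x ∈ LinearMap.range ι.f1

section Gen

variable (c : TwoChart K R0 R1 R01) (ι : QC2.Hom L' L)

include c

/-- If the cokernel of `ι` on the first chart is finite-dimensional then the overlap sections of
`L` are generated by those of `L'` and the first-chart sections of `L`. -/
theorem exists_r0_sub_mem [FiniteDimensional K (L.N0 ⧸ LinearMap.range ι.f0)] (z : L.N01) :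
    ∃ x : L.N0, z - L.r0 x ∈ LinearMap.range ι.f01 := by
  haveI := c.away0
  refine LocalFD.exists_sub_mem_of_finiteDimensional (K := K) c.t L.r0 L.bc0
    (LinearMap.range ι.f01) (LinearMap.range ι.f0) ?_ z
  rintro _ ⟨y, rfl⟩
  exact ⟨L'.r0 y, ι.comm0 y⟩

/-- Same as `exists_r0_sub_mem` for the second chart. -/
theorem exists_r1_sub_mem [FiniteDimensional K (L.N1 ⧸ LinearMap.range ι.f1)] (z : L.N01) :
    ∃ x : L.N1, z - L.r1 x ∈ LinearMap.range ι.f01 := by
  haveI := c.away1
  refine LocalFD.exists_sub_mem_of_finiteDimensional (K := K) c.s L.r1 L.bc1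
    (LinearMap.range ι.f01) (LinearMap.range ι.f1) ?_ z
  rintro _ ⟨y, rfl⟩
  exact ⟨L'.r1 y, ι.comm1 y⟩

/-- If the cokernel of `ι` on the first chart is finite-dimensional, then `H¹(L') → H¹(L)` is
surjective. -/
theorem mapH1_surjective_of_finiteDimensional
    [FiniteDimensional K (L.N0 ⧸ LinearMap.range ι.f0)] : Surjective (mapH1 ι) := by
  intro y
  obtain ⟨z, rfl⟩ := Submodule.Quotient.mk_surjective _ y
  obtain ⟨x, w, hw⟩ := exists_r0_sub_mem c ι z
  refine ⟨Submodule.Quotient.mk w, ?_⟩
  rw [mapH1_mk, hw, Submodule.Quotient.eq]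
  refine ⟨(-x, 0), ?_⟩
  rw [d_apply]
  simp

/-- Second-chart version of `mapH1_surjective_of_finiteDimensional`. -/
theorem mapH1_surjective_of_finiteDimensional'
    [FiniteDimensional K (L.N1 ⧸ LinearMap.range ι.f1)] : Surjective (mapH1 ι) := by
  intro y
  obtain ⟨z, rfl⟩ := Submodule.Quotient.mk_surjective _ y
  obtain ⟨x, w, hw⟩ := exists_r1_sub_mem c ι z
  refine ⟨Submodule.Quotient.mk w, ?_⟩
  rw [mapH1_mk, hw, Submodule.Quotient.eq]
  refine ⟨(0, x), ?_⟩
  rw [d_apply]
  simp

end Gen

/-- The projection of the chart part of the cokernel complex to the first-chart cokernel. -/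
def fstQ (ι : QC2.Hom L' L) : Coker2 ι →ₗ[K] (L.N0 ⧸ LinearMap.range ι.f0) :=
  (LinearMap.range (prodMap ι)).liftQ
    (((LinearMap.range ι.f0).mkQ.restrictScalars K).comp (LinearMap.fst K L.N0 L.N1)) (by
      rintro _ ⟨x, rfl⟩
      simp only [LinearMap.mem_ker, LinearMap.comp_apply, LinearMap.fst_apply,
        LinearMap.restrictScalars_apply, Submodule.mkQ_apply, Submodule.Quotient.mk_eq_zero,
        prodMap_apply]
      exact ⟨x.1, rfl⟩)

@[simp] lemma fstQ_mk (ι : QC2.Hom L' L) (x : L.N0 × L.N1) :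
    fstQ ι (Submodule.Quotient.mk x) = Submodule.Quotient.mk x.1 := rfl

/-- The map from the first-chart cokernel to the overlap cokernel. -/
def q0To01 (ι : QC2.Hom L' L) : (L.N0 ⧸ LinearMap.range ι.f0) →ₗ[K] Coker01 ι :=
  ((LinearMap.range ι.f0).liftQ
    (((LinearMap.range ι.f01).mkQ.restrictScalars R0).comp L.r0) (by
      rintro _ ⟨x, rfl⟩
      simp only [LinearMap.mem_ker, LinearMap.comp_apply, LinearMap.restrictScalars_apply,
        Submodule.mkQ_apply, Submodule.Quotient.mk_eq_zero]
      exact ⟨L'.r0 x, ι.comm0 x⟩)).restrictScalars K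

/-- The map from the second-chart cokernel to the overlap cokernel. -/
def q1To01 (ι : QC2.Hom L' L) : (L.N1 ⧸ LinearMap.range ι.f1) →ₗ[K] Coker01 ι :=
  ((LinearMap.range ι.f1).liftQ
    (((LinearMap.range ι.f01).mkQ.restrictScalars R1).comp L.r1) (by
      rintro _ ⟨x, rfl⟩
      simp only [LinearMap.mem_ker, LinearMap.comp_apply, LinearMap.restrictScalars_apply,
        Submodule.mkQ_apply, Submodule.Quotient.mk_eq_zero]
      exact ⟨L'.r1 x, ι.comm1 x⟩)).restrictScalars K

namespace IsModAt

variable {m : Ideal R0} {ι : QC2.Hom L' L}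

section

variable (h : IsModAt m ι) (c : TwoChart K R0 R1 R01)
  [FiniteDimensional K (L.N0 ⧸ LinearMap.range ι.f0)]

include h c

lemma q0To01_surjective : Surjective (q0To01 ι) := by
  intro y
  obtain ⟨z, rfl⟩ := Submodule.Quotient.mk_surjective _ y
  obtain ⟨x, hx⟩ := exists_r0_sub_mem c ι z
  refine ⟨Submodule.Quotient.mk x, ?_⟩
  show (Submodule.Quotient.mk (L.r0 x) : Coker01 ι) = Submodule.Quotient.mk z
  rw [Submodule.Quotient.eq]
  have := (LinearMap.range ι.f01).neg_mem hx
  rw [neg_sub] at this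
  exact this

lemma finiteDimensional_coker01 : FiniteDimensional K (Coker01 ι) :=
  Module.Finite.of_surjective (q0To01 ι) (h.q0To01_surjective c)

lemma q1To01_injective : Injective (q1To01 ι) := by
  rw [injective_iff_map_eq_zero]
  intro y hy
  obtain ⟨x, rfl⟩ := Submodule.Quotient.mk_surjective _ y
  have h1 : (Submodule.Quotient.mk (L.r1 x) : Coker01 ι) = 0 := hy
  rw [Submodule.Quotient.mk_eq_zero] at h1
  rw [Submodule.Quotient.mk_eq_zero]
  exact h.cart1 x h1

lemma finiteDimensional_coker1 : FiniteDimensional K (L.N1 ⧸ LinearMap.range ι.f1) :=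
  haveI := h.finiteDimensional_coker01 c
  FiniteDimensional.of_injective (q1To01 ι) (h.q1To01_injective c)

/-- `L.N01 = ι(L'.N01) + r1(L.N1)`. -/
lemma exists_r1_sub_mem' (z : L.N01) : ∃ x : L.N1, z - L.r1 x ∈ LinearMap.range ι.f01 :=
  haveI := h.finiteDimensional_coker1 c
  exists_r1_sub_mem c ι z

lemma cokerD_surjective : Surjective (cokerD ι) := by
  intro y
  obtain ⟨z, rfl⟩ := Submodule.Quotient.mk_surjective _ y
  obtain ⟨x, hx⟩ := exists_r0_sub_mem c ι z
  refine ⟨Submodule.Quotient.mk (x, 0), ?_⟩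
  rw [cokerD_mk, Submodule.Quotient.eq, d_apply]
  have := (LinearMap.range ι.f01).neg_mem hx
  simpa using this

/-- The kernel of the cokernel complex is the first-chart cokernel. -/
lemma theta_bijective :
    Bijective ((fstQ ι).comp (LinearMap.ker (cokerD ι)).subtype) := by
  constructor
  · rw [injective_iff_map_eq_zero]
    rintro ⟨y, hy⟩ hθ
    obtain ⟨⟨x0, x1⟩, rfl⟩ := Submodule.Quotient.mk_surjective _ y
    rw [LinearMap.mem_ker, cokerD_mk, Submodule.Quotient.mk_eq_zero] at hy
    have h0 : (Submodule.Quotient.mk x0 : L.N0 ⧸ LinearMap.range ι.f0) = 0 := hθ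
    rw [Submodule.Quotient.mk_eq_zero] at h0
    obtain ⟨y0, rfl⟩ := h0
    have hd : L.d (ι.f0 y0, x1) ∈ LinearMap.range ι.f01 := hy
    rw [d_apply] at hd
    have h1 : L.r1 x1 ∈ LinearMap.range ι.f01 := by
      have h2 : L.r0 (ι.f0 y0) ∈ LinearMap.range ι.f01 := ⟨L'.r0 y0, ι.comm0 y0⟩
      have := (LinearMap.range ι.f01).sub_mem h2 hd
      simpa using this
    obtain ⟨y1, rfl⟩ := h.cart1 x1 h1
    apply Subtype.ext
    show (Submodule.Quotient.mk (ι.f0 y0, ι.f1 y1) : Coker2 ι) = 0
    rw [Submodule.Quotient.mk_eq_zero]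
    exact ⟨(y0, y1), rfl⟩
  · intro q
    obtain ⟨x0, rfl⟩ := Submodule.Quotient.mk_surjective _ q
    obtain ⟨x1, hx1⟩ := h.exists_r1_sub_mem' c (L.r0 x0)
    refine ⟨⟨Submodule.Quotient.mk (x0, x1), ?_⟩, rfl⟩
    rw [LinearMap.mem_ker, cokerD_mk, Submodule.Quotient.mk_eq_zero, d_apply]
    exact hx1

lemma finrank_ker_cokerD :
    finrank K (LinearMap.ker (cokerD ι)) = finrank K (L.N0 ⧸ LinearMap.range ι.f0) :=
  (LinearEquiv.ofBijective _ (h.theta_bijective c)).finrank_eq

lemma finiteDimensional_ker_cokerD : FiniteDimensional K (LinearMap.ker (cokerD ι)) :=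
  (LinearEquiv.ofBijective _ (h.theta_bijective c)).symm.finiteDimensional

/-- `H¹(L') → H¹(L)` is surjective. -/
theorem mapH1_surjective : Surjective (mapH1 ι) :=
  mapH1_surjective_of_finiteDimensional c ι

/-- **Euler characteristic of an elementary modification**:
`h⁰(L') + dim(L.N0 ⧸ ι L'.N0) + h¹(L) = h⁰(L) + h¹(L')`. -/
theorem finrank_formula [FiniteDimensional K L.H0] [FiniteDimensional K L.H1]
    [FiniteDimensional K L'.H1] :
    finrank K L'.H0 + finrank K (L.N0 ⧸ LinearMap.range ι.f0) + finrank K L.H1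
      = finrank K L.H0 + finrank K L'.H1 := by
  haveI := h.finiteDimensional_ker_cokerD c
  have key := Hom.finrank_formula ι h.inj0 h.inj1 h.inj01
  rw [h.finrank_ker_cokerD c] at key
  have hz : finrank K (Coker01 ι ⧸ LinearMap.range (cokerD ι)) = 0 := by
    rw [LinearMap.range_eq_top.2 (h.cokerD_surjective c)]
    exact finrank_zero_of_subsingleton
  rw [hz, add_zero] at key
  exact key

end

/-- `H⁰(L') → H⁰(L)` is injective. -/
theorem mapH0_injective (h : IsModAt m ι) : Injective (mapH0 ι) :=
  SnakeLA.kerMap_injective L'.d L.d (prodMap ι) (map01 ι) (map01_comp_d ι)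
    (prodMap_injective_of ι h.inj0 h.inj1)

/-- If some global section of `L` does not lie in `m • L.N0` on the first chart ("does not vanish
at the point") and the fibre `L.N0 ⧸ m L.N0` is one-dimensional, then passing to `L' = L(-P)` drops
`h⁰` by exactly one and does not change `h¹`. -/
theorem finrank_of_exists_not_mem (h : IsModAt m ι) (c : TwoChart K R0 R1 R01)
    [FiniteDimensional K L.H0] [FiniteDimensional K L.H1] [FiniteDimensional K L'.H1]
    (h1 : finrank K (L.N0 ⧸ LinearMap.range ι.f0) = 1)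
    (hσ : ∃ σ : L.H0, σ.1.1 ∉ m • (⊤ : Submodule R0 L.N0)) :
    finrank K L'.H0 + 1 = finrank K L.H0 ∧ finrank K L'.H1 = finrank K L.H1 := by
  haveI : FiniteDimensional K (L.N0 ⧸ LinearMap.range ι.f0) :=
    Module.finite_of_finrank_pos (by rw [h1]; exact Nat.one_pos)
  have key := h.finrank_formula c
  rw [h1] at key
  have hle1 : finrank K L.H1 ≤ finrank K L'.H1 :=
    LinearMap.finrank_le_finrank_of_surjective (h.mapH1_surjective c)
  have hlt : finrank K L'.H0 < finrank K L.H0 := by
    rw [← LinearMap.finrank_range_of_inj h.mapH0_injective]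
    apply Submodule.finrank_lt
    intro htop
    obtain ⟨σ, hσ⟩ := hσ
    have : σ ∈ LinearMap.range (mapH0 ι) := by rw [htop]; trivial
    obtain ⟨τ, rfl⟩ := this
    apply hσ
    rw [← h.range0]
    exact ⟨τ.1.1, rfl⟩
  omega

end IsModAt

end Field

end Fermat.Agent.Jac.Riemann4.Modification
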