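/-
Fermat/Agent/Jac/Riemann4/PoleTwist.lean  (helper4, brick A2 Riemann)

Twisting a two-chart module by a multiple of the pole divisor `D∞` of the coordinate `t`:
`L.twistInf c n = L(n·D∞)` has the same chart modules as `L`, and the second restriction map is
multiplied by the unit `t ^ n` of `R01`  (sections over the second chart are `s^{-n} • N1`).

Main result: if `H¹(L)` is finitely generated over the base ring then `H¹(L(n·D∞)) = 0` for all
`n ≥ n₀`.
-/
import Fermat.Agent.Jac.Riemann4.Basic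

set_option autoImplicit false
set_option linter.unusedSectionVars false

universe u

namespace Fermat.Agent.Jac.Riemann4.PoleTwist

open Function Module Fermat.Agent.Jac Fermat.Agent.Jac.Riemann4 Fermat.Agent.Jac.Riemann4.Basic

variable {A R0 R1 R01 : Type u} [CommRing A] [CommRing R0] [CommRing R1] [CommRing R01]
  [Algebra A R0] [Algebra A R1] [Algebra A R01] [Algebra R0 R01] [Algebra R1 R01]
  [IsScalarTower A R0 R01] [IsScalarTower A R1 R01]

/-- The coordinate `t` as a unit of the overlap ring (its inverse is `s`). -/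
def tUnit (c : TwoChart A R0 R1 R01) : R01ˣ where
  val := algebraMap R0 R01 c.t
  inv := algebraMap R1 R01 c.s
  val_inv := c.ts
  inv_val := by rw [mul_comm]; exact c.ts

@[simp] lemma tUnit_val (c : TwoChart A R0 R1 R01) : (tUnit c : R01) = algebraMap R0 R01 c.t := rfl

@[simp] lemma tUnit_inv (c : TwoChart A R0 R1 R01) :
    ((tUnit c)⁻¹ : R01ˣ) = algebraMap R1 R01 c.s := rfl

/-- `L(n·D∞)`: the same chart modules, second restriction map multiplied by `t ^ n`. -/
abbrev twistInf (c : TwoChart A R0 R1 R01) (L : QC2 A R0 R1 R01) (n : ℤ) : QC2 A R0 R1 R01 where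
  N0 := L.N0
  N1 := L.N1
  N01 := L.N01
  r0 := L.r0
  r1 := ((LinearEquiv.smulOfUnit (R := R01) (M := L.N01) (tUnit c ^ n)).toLinearMap.restrictScalars
    R1).comp L.r1
  bc0 := L.bc0
  bc1 := L.bc1.comp (IsBaseChange.ofEquiv _)

section

variable (c : TwoChart A R0 R1 R01) (L : QC2 A R0 R1 R01) (n : ℤ)

@[simp] lemma twistInf_r0_apply (x : L.N0) : (twistInf c L n).r0 x = L.r0 x := rfl

lemma twistInf_r1_apply (x : L.N1) :
    (twistInf c L n).r1 x = ((tUnit c ^ n : R01ˣ) : R01) • L.r1 x := rfl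

lemma twistInf_d_apply (x : L.N0 × L.N1) :
    (twistInf c L n).d x = L.r0 x.1 - ((tUnit c ^ n : R01ˣ) : R01) • L.r1 x.2 :=
  d_apply (twistInf c L n) x

/-- The image of the twisted differential, as a submodule of the (unchanged) overlap module. -/
def im : Submodule A L.N01 := LinearMap.range (twistInf c L n).d

lemma mem_im_iff (z : L.N01) :
    z ∈ im c L n ↔ ∃ x0 : L.N0, ∃ x1 : L.N1, z = L.r0 x0 - ((tUnit c ^ n : R01ˣ) : R01) • L.r1 x1 := by
  constructor
  · rintro ⟨x, rfl⟩
    exact ⟨x.1, x.2, twistInf_d_apply c L n x⟩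
  · rintro ⟨x0, x1, rfl⟩
    exact ⟨(x0, x1), twistInf_d_apply c L n (x0, x1)⟩

lemma s_smul_eq (y : L.N01) : c.s • y = ((tUnit c)⁻¹ : R01ˣ) • y := by
  rw [← algebraMap_smul R01 c.s y]; rfl

lemma im_le_succ : im c L n ≤ im c L (n + 1) := by
  intro z hz
  rw [mem_im_iff] at hz ⊢
  obtain ⟨x0, x1, rfl⟩ := hz
  refine ⟨x0, c.s • x1, ?_⟩
  congr 1
  rw [map_smul, s_smul_eq, Units.smul_def, smul_smul, ← Units.val_mul, zpow_add_one, mul_assoc,
    mul_inv_cancel, mul_one]

lemma im_mono : Monotone (fun k : ℕ => im c L (n + k)) := by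
  apply monotone_nat_of_le_succ
  intro k
  have := im_le_succ c L (n + k)
  simpa [add_assoc] using this

/-- Every overlap section lies in the image of some twisted differential. -/
lemma exists_mem_im (z : L.N01) : ∃ k : ℕ, z ∈ im c L (n + k) := by
  haveI := c.away1
  haveI : IsLocalizedModule (Submonoid.powers c.s) L.r1 :=
    (isLocalizedModule_iff_isBaseChange (Submonoid.powers c.s) R01 L.r1).mpr L.bc1
  -- first for `n = 0`-type statement: `z = t^k • r1 x`
  obtain ⟨⟨x, ⟨_, k, rfl⟩⟩, hx⟩ := IsLocalizedModule.surj (Submonoid.powers c.s) L.r1 z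
  have hx' : c.s ^ k • z = L.r1 x := hx
  have hz : z = ((tUnit c ^ (k : ℤ) : R01ˣ) : R01) • L.r1 x := by
    rw [← hx', ← algebraMap_smul R01 (c.s ^ k) z, smul_smul, map_pow, ← tUnit_inv, ← Units.val_pow_eq_pow_val,
      ← Units.val_mul, zpow_natCast, inv_pow, mul_inv_cancel, Units.val_one, one_smul]
  -- now move to exponent `n + k'`
  rcases le_or_gt 0 n with hn | hn
  · -- `n ≥ 0`: use monotonicity from exponent `k ≤ n + k`
    refine ⟨k, ?_⟩
    have h1 : z ∈ im c L (k : ℤ) := by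
      rw [mem_im_iff]
      exact ⟨0, -x, by rw [map_zero, zero_sub, map_neg, smul_neg, neg_neg]; exact hz⟩
    obtain ⟨j, hj⟩ : ∃ j : ℕ, n + k = (k : ℤ) + j := ⟨n.toNat, by omega⟩
    rw [hj]
    exact im_mono c L (k : ℤ) (Nat.zero_le j) (by simpa using h1)
  · -- `n < 0`: take `k' = k + |n|`
    refine ⟨k + n.natAbs, ?_⟩
    have : n + ((k + n.natAbs : ℕ) : ℤ) = k := by
      have := Int.natAbs_neg n
      omega
    rw [this, mem_im_iff]
    exact ⟨0, -x, by rw [map_zero, zero_sub, map_neg, smul_neg, neg_neg]; exact hz⟩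

/-- **Vanishing of `H¹` after a large pole twist**: if `H¹(L)` is a finitely generated module
over the base ring, then `H¹(L(n·D∞)) = 0` for all `n ≥ n₀`. -/
theorem exists_forall_subsingleton_H1 [Module.Finite A L.H1] :
    ∃ n0 : ℕ, ∀ n : ℤ, (n0 : ℤ) ≤ n → Subsingleton (twistInf c L n).H1 := by
  -- the images `W k = im (k)` inside `H¹(L) = N01 ⧸ W 0`
  let W0 : Submodule A L.N01 := LinearMap.range L.d
  have hW0 : W0 = im c L 0 := by
    apply le_antisymm
    · rintro _ ⟨x, rfl⟩
      rw [mem_im_iff]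
      exact ⟨x.1, x.2, by rw [d_apply]; simp⟩
    · intro z hz
      rw [mem_im_iff] at hz
      obtain ⟨x0, x1, rfl⟩ := hz
      exact ⟨(x0, x1), by rw [d_apply]; simp⟩
  let V : ℕ →o Submodule A (L.N01 ⧸ W0) :=
    ⟨fun k => Submodule.map W0.mkQ (im c L (0 + k)), fun a b hab =>
      Submodule.map_mono (im_mono c L 0 hab)⟩
  have hsup : iSup V = ⊤ := by
    rw [eq_top_iff]
    rintro y -
    obtain ⟨z, rfl⟩ := Submodule.Quotient.mk_surjective _ y
    obtain ⟨k, hk⟩ := exists_mem_im c L 0 z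
    exact Submodule.mem_iSup_of_mem k ⟨z, hk, rfl⟩
  have hfg : (⊤ : Submodule A (L.N01 ⧸ W0)).FG := Module.Finite.fg_top
  obtain ⟨n0, hn0⟩ := hfg.stabilizes_of_iSup_eq V hsup
  refine ⟨n0, fun n hn => ?_⟩
  -- `im n = ⊤`
  have htop0 : im c L (0 + n0) = ⊤ := by
    have h1 : W0 ⊔ im c L (0 + n0) = ⊤ := (Submodule.map_mkQ_eq_top _ _).1 hn0.symm
    have h2 : W0 ≤ im c L (0 + n0) := by
      rw [hW0]
      have := im_mono c L 0 (Nat.zero_le n0)
      simpa using this
    rwa [sup_eq_right.2 h2] at h1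
  have htop : im c L n = ⊤ := by
    obtain ⟨j, hj⟩ : ∃ j : ℕ, n = (0 + n0 : ℤ) + j := ⟨(n - n0).toNat, by omega⟩
    rw [eq_top_iff, ← htop0, hj]
    have := im_mono c L (0 + n0) (Nat.zero_le j)
    simpa using this
  have : LinearMap.range (twistInf c L n).d = ⊤ := htop
  exact Submodule.Quotient.subsingleton_iff.2 this

end

/-- A morphism of two-chart modules is also a morphism of their pole twists (same components). -/
def homTwistInf (c : TwoChart A R0 R1 R01) {L M : QC2 A R0 R1 R01} (f : QC2.Hom L M) (n : ℤ) :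
    QC2.Hom (twistInf c L n) (twistInf c M n) where
  f0 := f.f0
  f1 := f.f1
  f01 := f.f01
  comm0 := f.comm0
  comm1 := fun x => by
    show f.f01 (((tUnit c ^ n : R01ˣ) : R01) • L.r1 x) = ((tUnit c ^ n : R01ˣ) : R01) • M.r1 (f.f1 x)
    rw [map_smul, f.comm1 x]

end Fermat.Agent.Jac.Riemann4.PoleTwist
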