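/-
Fermat/Agent/Jac/Riemann4/Degree.lean  (helper4, brick A2 Riemann)

The Euler characteristic of pole twists:  for a line bundle `L` over a field `K`,
  `χ(L(n·D∞)) = χ(L((n-m)·D∞)) + δ_m`,   `δ_m := dim_K R1 ⧸ (s^m)`,
with the SAME `δ_m` for every line bundle (the fibre `N1 ⧸ s^m N1` of an invertible module over the
artinian ring `R1 ⧸ (s^m)` is free of rank one).
-/
import Fermat.Agent.Jac.Riemann4.Modification
import Fermat.Agent.Jac.Riemann4.PoleTwist
import Fermat.Agent.Jac.Riemann4.FibreRank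

set_option autoImplicit false
set_option linter.unusedSectionVars false

universe u

namespace Fermat.Agent.Jac.Riemann4.Degree

open Function Module Fermat.Agent.Jac Fermat.Agent.Jac.Riemann4 Fermat.Agent.Jac.Riemann4.Basic
  Fermat.Agent.Jac.Riemann4.PoleTwist Fermat.Agent.Jac.Riemann4.Modification

section General

variable {A R0 R1 R01 : Type u} [CommRing A] [CommRing R0] [CommRing R1] [CommRing R01]
  [Algebra A R0] [Algebra A R1] [Algebra A R01] [Algebra R0 R01] [Algebra R1 R01]
  [IsScalarTower A R0 R01] [IsScalarTower A R1 R01]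

/-- The inclusion `L((n-m)·D∞) → L(n·D∞)`: identity on the first chart and on the overlap,
multiplication by `s^m` on the second chart. -/
def homInf (c : TwoChart A R0 R1 R01) (L : QC2 A R0 R1 R01) (n : ℤ) (m : ℕ) :
    QC2.Hom (twistInf c L (n - m)) (twistInf c L n) where
  f0 := LinearMap.id
  f1 := LinearMap.lsmul R1 L.N1 (c.s ^ m)
  f01 := LinearMap.id
  comm0 := fun _ => rfl
  comm1 := fun (x : L.N1) => by
    show ((tUnit c ^ (n - m) : R01ˣ) : R01) • L.r1 x
      = ((tUnit c ^ n : R01ˣ) : R01) • L.r1 ((c.s ^ m) • x)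
    rw [map_smul, ← algebraMap_smul R01 (c.s ^ m) (L.r1 x), smul_smul, map_pow, ← tUnit_inv,
      ← Units.val_pow_eq_pow_val, ← Units.val_mul, inv_pow, ← zpow_natCast, ← zpow_neg, ← zpow_add,
      sub_eq_add_neg]

@[simp] lemma homInf_f0 (c : TwoChart A R0 R1 R01) (L : QC2 A R0 R1 R01) (n : ℤ) (m : ℕ) :
    (homInf c L n m).f0 = LinearMap.id := rfl

@[simp] lemma homInf_f01 (c : TwoChart A R0 R1 R01) (L : QC2 A R0 R1 R01) (n : ℤ) (m : ℕ) :
    (homInf c L n m).f01 = LinearMap.id := rfl

lemma homInf_f1_apply (c : TwoChart A R0 R1 R01) (L : QC2 A R0 R1 R01) (n : ℤ) (m : ℕ)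
    (x : L.N1) : (homInf c L n m).f1 x = c.s ^ m • x := rfl

end General

section Field

variable {K R0 R1 R01 : Type u} [Field K] [CommRing R0] [CommRing R1] [CommRing R01]
  [Algebra K R0] [Algebra K R1] [Algebra K R01] [Algebra R0 R01] [Algebra R1 R01]
  [IsScalarTower K R0 R01] [IsScalarTower K R1 R01]
  {L' L : QC2 K R0 R1 R01}

/-- The projection of the chart part of the cokernel complex to the second-chart cokernel. -/
def sndQ (ι : QC2.Hom L' L) : Coker2 ι →ₗ[K] (L.N1 ⧸ LinearMap.range ι.f1) :=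
  (LinearMap.range (prodMap ι)).liftQ
    (((LinearMap.range ι.f1).mkQ.restrictScalars K).comp (LinearMap.snd K L.N0 L.N1)) (by
      rintro _ ⟨x, rfl⟩
      simp only [LinearMap.mem_ker, LinearMap.comp_apply, LinearMap.snd_apply,
        LinearMap.restrictScalars_apply, Submodule.mkQ_apply, Submodule.Quotient.mk_eq_zero,
        prodMap_apply]
      exact ⟨x.2, rfl⟩)

@[simp] lemma sndQ_mk (ι : QC2.Hom L' L) (x : L.N0 × L.N1) :
    sndQ ι (Submodule.Quotient.mk x) = Submodule.Quotient.mk x.2 := rfl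

/-- If `ι` is surjective on the first chart and on the overlap, the kernel of the cokernel complex
is the second-chart cokernel. -/
lemma sndQ_comp_subtype_bijective (ι : QC2.Hom L' L) (h0 : Surjective ι.f0)
    (h01 : Surjective ι.f01) :
    Bijective ((sndQ ι).comp (LinearMap.ker (cokerD ι)).subtype) := by
  constructor
  · rw [injective_iff_map_eq_zero]
    rintro ⟨y, hy⟩ hθ
    obtain ⟨⟨x0, x1⟩, rfl⟩ := Submodule.Quotient.mk_surjective _ y
    have h1 : (Submodule.Quotient.mk x1 : L.N1 ⧸ LinearMap.range ι.f1) = 0 := hθ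
    rw [Submodule.Quotient.mk_eq_zero] at h1
    obtain ⟨y1, rfl⟩ := h1
    obtain ⟨y0, rfl⟩ := h0 x0
    apply Subtype.ext
    show (Submodule.Quotient.mk (ι.f0 y0, ι.f1 y1) : Coker2 ι) = 0
    rw [Submodule.Quotient.mk_eq_zero]
    exact ⟨(y0, y1), rfl⟩
  · intro q
    obtain ⟨x1, rfl⟩ := Submodule.Quotient.mk_surjective _ q
    refine ⟨⟨Submodule.Quotient.mk (0, x1), ?_⟩, rfl⟩
    rw [LinearMap.mem_ker, cokerD_mk, Submodule.Quotient.mk_eq_zero]
    obtain ⟨w, hw⟩ := h01 (L.d (0, x1))
    exact ⟨w, hw⟩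

/-- **Euler characteristic of pole twists.** -/
theorem finrank_twistInf (c : TwoChart K R0 R1 R01) (L : QC2 K R0 R1 R01) (hL : L.IsLine)
    (hs : c.s ∈ nonZeroDivisors R1) (n : ℤ) (m : ℕ)
    [FiniteDimensional K (R1 ⧸ Ideal.span {c.s ^ m})]
    [FiniteDimensional K (twistInf c L n).H0] [FiniteDimensional K (twistInf c L n).H1]
    [FiniteDimensional K (twistInf c L (n - m)).H1] :
    finrank K (twistInf c L (n - m)).H0 + finrank K (R1 ⧸ Ideal.span {c.s ^ m})
        + finrank K (twistInf c L n).H1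
      = finrank K (twistInf c L n).H0 + finrank K (twistInf c L (n - m)).H1 := by
  haveI := hL.inv1
  let ι := homInf c L n m
  have hbij := sndQ_comp_subtype_bijective ι (fun x => ⟨x, rfl⟩) (fun x => ⟨x, rfl⟩)
  have hfib : finrank K (L.N1 ⧸ LinearMap.range ι.f1) = finrank K (R1 ⧸ Ideal.span {c.s ^ m}) :=
    FibreRank.finrank_quotient_range_lsmul (K := K) (N := L.N1) (c.s ^ m)
  have hker : finrank K (LinearMap.ker (cokerD ι)) = finrank K (R1 ⧸ Ideal.span {c.s ^ m}) := by
    rw [← hfib]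
    exact (LinearEquiv.ofBijective _ hbij).finrank_eq
  haveI : FiniteDimensional K (L.N1 ⧸ LinearMap.range ι.f1) :=
    FibreRank.finiteDimensional_quotient_range_lsmul (K := K) (N := L.N1) (c.s ^ m)
  haveI : FiniteDimensional K (LinearMap.ker (cokerD ι)) :=
    (LinearEquiv.ofBijective _ hbij).symm.finiteDimensional
  have hreg : IsSMulRegular L.N1 (c.s ^ m) :=
    Module.Flat.isSMulRegular_of_nonZeroDivisors (pow_mem hs m)
  have key := Hom.finrank_formula ι (fun _ _ h => h) hreg (fun _ _ h => h)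
  rw [hker] at key
  have hz : finrank K (Coker01 ι ⧸ LinearMap.range (cokerD ι)) = 0 := by
    haveI : Subsingleton (Coker01 ι) := by
      apply Submodule.Quotient.subsingleton_iff.2
      rw [eq_top_iff]
      intro x _
      exact ⟨x, rfl⟩
    exact finrank_zero_of_subsingleton
  rw [hz, add_zero] at key
  exact key

end Field

end Fermat.Agent.Jac.Riemann4.Degree
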