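/-
Fermat/Agent/Jac/Riemann4/FibreRank.lean  (helper4, brick A2 Riemann)

For an invertible module `N` over a `K`-algebra `R` and `a : R` with `R ⧸ (a)` finite-dimensional
over the field `K`:  `dim_K N ⧸ a N = dim_K R ⧸ (a)`.
(`R ⧸ (a)` is artinian, hence semilocal, hence has trivial Picard group, so `N ⧸ a N` is free of
rank one over it.)
-/
import Mathlib

set_option autoImplicit false

universe u v w

namespace Fermat.Agent.Jac.Riemann4.FibreRank

open Module TensorProduct

theorem nonempty_linearEquiv_quotient_span_smul_top {K : Type w} {R : Type u} {N : Type v} [Field K]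
    [CommRing R] [Algebra K R] [AddCommGroup N] [Module R N] [Module K N] [IsScalarTower K R N]
    [Module.Invertible R N] (a : R) [FiniteDimensional K (R ⧸ Ideal.span {a})] :
    Nonempty ((N ⧸ ((Ideal.span {a} : Ideal R) • (⊤ : Submodule R N))) ≃ₗ[K]
      (R ⧸ Ideal.span {a})) := by
  haveI : IsArtinianRing (R ⧸ Ideal.span {a}) := IsArtinianRing.of_finite K (R ⧸ Ideal.span {a})
  haveI : Module.Free (R ⧸ Ideal.span {a}) ((R ⧸ Ideal.span {a}) ⊗[R] N) := inferInstance
  obtain ⟨e⟩ := Module.Invertible.free_iff_linearEquiv.mp this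
  let e' : (N ⧸ ((Ideal.span {a} : Ideal R) • (⊤ : Submodule R N))) ≃ₗ[R] (R ⧸ Ideal.span {a}) :=
    (TensorProduct.quotTensorEquivQuotSMul N (Ideal.span {a})).symm ≪≫ₗ e.restrictScalars R
  exact ⟨e'.restrictScalars K⟩

lemma range_lsmul_eq {R : Type u} {N : Type v} [CommRing R] [AddCommGroup N] [Module R N] (a : R) :
    LinearMap.range (LinearMap.lsmul R N a)
      = (Ideal.span {a} : Ideal R) • (⊤ : Submodule R N) := by
  rw [Submodule.ideal_span_singleton_smul]
  ext x
  rw [Submodule.mem_smul_pointwise_iff_exists]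
  constructor
  · rintro ⟨y, rfl⟩
    exact ⟨y, trivial, rfl⟩
  · rintro ⟨y, -, rfl⟩
    exact ⟨y, rfl⟩

/-- The same statement with the submodule `a N` written as the range of multiplication by `a`. -/
theorem nonempty_linearEquiv_quotient_range_lsmul {K : Type w} {R : Type u} {N : Type v} [Field K]
    [CommRing R] [Algebra K R] [AddCommGroup N] [Module R N] [Module K N] [IsScalarTower K R N]
    [Module.Invertible R N] (a : R) [FiniteDimensional K (R ⧸ Ideal.span {a})] :
    Nonempty ((N ⧸ LinearMap.range (LinearMap.lsmul R N a)) ≃ₗ[K] (R ⧸ Ideal.span {a})) := by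
  obtain ⟨e⟩ := nonempty_linearEquiv_quotient_span_smul_top (K := K) (N := N) a
  exact ⟨((Submodule.quotEquivOfEq _ _ (range_lsmul_eq (N := N) a)).restrictScalars K).trans e⟩

theorem finrank_quotient_range_lsmul {K : Type w} {R : Type u} {N : Type v} [Field K] [CommRing R]
    [Algebra K R] [AddCommGroup N] [Module R N] [Module K N] [IsScalarTower K R N]
    [Module.Invertible R N] (a : R) [FiniteDimensional K (R ⧸ Ideal.span {a})] :
    finrank K (N ⧸ LinearMap.range (LinearMap.lsmul R N a)) = finrank K (R ⧸ Ideal.span {a}) := by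
  obtain ⟨e⟩ := nonempty_linearEquiv_quotient_range_lsmul (K := K) (N := N) a
  exact e.finrank_eq

theorem finiteDimensional_quotient_range_lsmul {K : Type w} {R : Type u} {N : Type v} [Field K]
    [CommRing R] [Algebra K R] [AddCommGroup N] [Module R N] [Module K N] [IsScalarTower K R N]
    [Module.Invertible R N] (a : R) [FiniteDimensional K (R ⧸ Ideal.span {a})] :
    FiniteDimensional K (N ⧸ LinearMap.range (LinearMap.lsmul R N a)) := by
  obtain ⟨e⟩ := nonempty_linearEquiv_quotient_range_lsmul (K := K) (N := N) a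
  exact e.symm.finiteDimensional

end Fermat.Agent.Jac.Riemann4.FibreRank
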