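/-
Fermat/Agent/Jac/Riemann4/Same.lean  (helper4, brick A2 Riemann)

Discharges the hypothesis `hsame` of helper82's covering lemma
`RiemannCover82.Cover.exists_twist_points`: line bundles with the same Euler characteristic have
the same `h⁰` after any pole twist that kills `H¹` (degree formula of helper14,
`P1CohChi.chiField_twist_line`, whose slope `dim_K R1/(s)` does not depend on the line bundle).
Also the packaged covering lemma for line bundles of equal Euler characteristic.
-/
import Fermat.Agent.Jac.P1CohChi.LineRank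
import Fermat.Agent.Jac.P1CohChi.TwistFormula
import Fermat.Agent.Jac.LineOps39.OverLine
import Fermat.Agent.Jac.RiemannCover82.Cover

set_option autoImplicit false
set_option linter.unusedSectionVars false

universe u

namespace Fermat.Agent.Jac.Riemann4.Same

open Module TensorProduct Fermat.Agent.Jac Fermat.Agent.Jac.P1CohChi Fermat.Agent.Jac.P1CohChi.LineRank
  Fermat.Agent.Jac.LineOps39

variable {K R0 R1 R01 : Type u} [Field K] [CommRing R0] [CommRing R1] [CommRing R01]
  [Algebra K R0] [Algebra K R1] [Algebra K R01] [Algebra R0 R01] [Algebra R1 R01]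
  [IsScalarTower K R0 R01] [IsScalarTower K R1 R01]

/-- `h⁰` of a pole twist with vanishing `H¹` of a line bundle over a field:
`h⁰(N(m)) = χ(N) + m · dim_K (R1/(s))`. -/
theorem finrank_H0_twist (c : TwoChart K R0 R1 R01) (hc : c.FiniteProjOverLine)
    (N : QC2 K R0 R1 R01) (hN : N.IsLine) (m : ℤ) [Subsingleton (N.twist c m).H1] :
    (finrank K (N.twist c m).H0 : ℤ)
      = (finrank K N.H0 : ℤ) - finrank K N.H1 + m * (finrank K (K ⊗[K] UInf c) : ℤ) := by
  have hF := finiteOverLine_of_isLine c hc hN
  have hP := projOverLine_of_isLine c hc hN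
  have h1 := chiField_twist_line c N hc hF hP hN.inv1 K m
  rw [chiField_self, chiField_self] at h1
  rw [finrank_zero_of_subsingleton (M := (N.twist c m).H1)] at h1
  simpa using h1

/-- The hypothesis `hsame` of `RiemannCover82.Cover.exists_twist_points` holds for line bundles
with equal Euler characteristics. -/
theorem hsame_of_chi_eq (c : TwoChart K R0 R1 R01) (hc : c.FiniteProjOverLine) {ι : Type*}
    (N : ι → QC2 K R0 R1 R01) (hN : ∀ i, (N i).IsLine)
    (hchi : ∀ i j, (finrank K (N i).H0 : ℤ) - finrank K (N i).H1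
      = (finrank K (N j).H0 : ℤ) - finrank K (N j).H1) :
    ∃ m₁ : ℕ, ∀ m : ℤ, (m₁ : ℤ) ≤ m → (∀ i, Subsingleton ((N i).twist c m).H1) →
      ∀ i j, finrank K ((N i).twist c m).H0 = finrank K ((N j).twist c m).H0 := by
  refine ⟨0, fun m _ hH1 i j => ?_⟩
  haveI := hH1 i
  haveI := hH1 j
  have hi := finrank_H0_twist c hc (N i) (hN i) m
  have hj := finrank_H0_twist c hc (N j) (hN j) m
  have := hchi i j
  have e : (finrank K ((N i).twist c m).H0 : ℤ) = finrank K ((N j).twist c m).H0 := by
    rw [hi, hj, this]
  exact_mod_cast e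

open Fermat.Agent.Jac.RiemannCover82.Step Fermat.Agent.Jac.RiemannCover82.Cover in
/-- **Covering lemma (blueprint Claim 7)** for finitely many line bundles over a field with the
same Euler characteristic: one twist `m • D∞` and one list of points of `Pts` make all of them
acyclic simultaneously. -/
theorem exists_twist_points_of_chi_eq (c : TwoChart K R0 R1 R01) (hc : c.FiniteProjOverLine)
    {Pts : Set (Ideal R0)} (hPts : Pts.Infinite) (hgood : ∀ m ∈ Pts, GoodPoint c m)
    (hz : FiniteZeros Pts) {ι : Type*} [Finite ι] (N : ι → QC2 K R0 R1 R01)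
    (hN : ∀ i, (N i).IsLine)
    (hchi : ∀ i j, (finrank K (N i).H0 : ℤ) - finrank K (N i).H1
      = (finrank K (N j).H0 : ℤ) - finrank K (N j).H1) :
    ∃ (m : ℕ) (l : List (Ideal R0)), (∀ p ∈ l, p ∈ Pts) ∧
      ∀ i, (downTwistList c ((N i).twist c m) l).IsLine ∧
        (downTwistList c ((N i).twist c m) l).H0 = ⊥ ∧
        Subsingleton (downTwistList c ((N i).twist c m) l).H1 :=
  exists_twist_points c hc hPts hgood hz N hN (hsame_of_chi_eq c hc N hN hchi)

end Fermat.Agent.Jac.Riemann4.Same
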