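/-
Fermat/Agent/Jac/Riemann4/Torsion.lean  (helper4, brick A2 Riemann)

Commutative algebra over a `K`-algebra domain `R` satisfying
  (FL)  `R ⧸ (a)` is finite-dimensional over `K` for every `a ≠ 0`
(e.g. the coordinate ring of an affine curve):

* a finitely generated torsion `R`-module is finite-dimensional over `K`;
* an invertible module has "rank one": any two elements are proportional;
* for `σ ≠ 0` in an invertible module `N`, the quotient `N ⧸ R σ` is finite-dimensional.
-/
import Mathlib

set_option autoImplicit false

namespace Fermat.Agent.Jac.Riemann4.Torsion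

open Function Module TensorProduct

section RankOne

variable {R N : Type*} [CommRing R] [AddCommGroup N] [Module R N] [Module.Invertible R N]

/-- In an invertible module, `φ(x) • y = φ(y) • x` for every linear form `φ`. -/
lemma dual_apply_smul_comm (φ : Module.Dual R N) (x y : N) : φ x • y = φ y • x := by
  have h : x ⊗ₜ[R] y = y ⊗ₜ[R] x := Module.Invertible.tmul_comm
  have := congrArg (TensorProduct.lift ((LinearMap.lsmul R N).comp φ)) h
  simpa using this

/-- Any element of an invertible module is torsion modulo a nonzero element. -/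
theorem exists_ne_zero_smul_mem_span {σ : N} (hσ : σ ≠ 0) (x : N) :
    ∃ a : R, a ≠ 0 ∧ a • x ∈ Submodule.span R {σ} := by
  obtain ⟨φ, hφ⟩ := Module.Projective.exists_dual_ne_zero R hσ
  refine ⟨φ σ, hφ, ?_⟩
  rw [dual_apply_smul_comm φ σ x]
  exact Submodule.smul_mem _ _ (Submodule.mem_span_singleton_self σ)

end RankOne

section FL

variable {K R : Type*} [Field K] [CommRing R] [Algebra K R]

/-- A cyclic torsion module is finite-dimensional. -/
lemma finiteDimensional_span_singleton
    (hFL : ∀ a : R, a ≠ 0 → FiniteDimensional K (R ⧸ Ideal.span {a}))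
    {T : Type*} [AddCommGroup T] [Module R T] [Module K T] [IsScalarTower K R T]
    (y : T) (a : R) (ha : a ≠ 0) (hay : a • y = 0) :
    FiniteDimensional K ((Submodule.span R {y}).restrictScalars K) := by
  haveI := hFL a ha
  let ψR : (R ⧸ Ideal.span {a}) →ₗ[R] T :=
    Submodule.liftQ (Ideal.span {a}) (LinearMap.toSpanSingleton R T y) (by
      rw [Ideal.span, Submodule.span_le]
      rintro _ rfl
      simp [hay])
  let ψ : (R ⧸ Ideal.span {a}) →ₗ[K] T := ψR.restrictScalars K
  have hrange : LinearMap.range ψ = (Submodule.span R {y}).restrictScalars K := by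
    ext z
    constructor
    · rintro ⟨q, rfl⟩
      obtain ⟨r, rfl⟩ := Submodule.Quotient.mk_surjective _ q
      show r • y ∈ Submodule.span R {y}
      exact Submodule.smul_mem _ _ (Submodule.mem_span_singleton_self y)
    · intro hz
      obtain ⟨r, rfl⟩ := Submodule.mem_span_singleton.1 hz
      exact ⟨Submodule.Quotient.mk r, rfl⟩
  rw [← hrange]
  infer_instance

/-- **Finitely generated torsion modules are finite-dimensional** over `K`, for a `K`-algebra `R`
all of whose quotients `R ⧸ (a)`, `a ≠ 0`, are finite-dimensional. -/
theorem finiteDimensional_of_torsion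
    (hFL : ∀ a : R, a ≠ 0 → FiniteDimensional K (R ⧸ Ideal.span {a}))
    {T : Type*} [AddCommGroup T] [Module R T] [Module K T] [IsScalarTower K R T]
    [Module.Finite R T] (htors : ∀ y : T, ∃ a : R, a ≠ 0 ∧ a • y = 0) :
    FiniteDimensional K T := by
  have key : ∀ (P : Submodule R T) (_ : P.FG), FiniteDimensional K (P.restrictScalars K) := by
    intro P hP
    refine Submodule.fg_induction
      (motive := fun P _ => FiniteDimensional K (P.restrictScalars K)) ?_ ?_ P hP
    · intro y
      obtain ⟨a, ha, hay⟩ := htors y
      exact finiteDimensional_span_singleton hFL y a ha hay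
    · intro P₁ P₂ _ _ h₁ h₂
      have : (P₁ ⊔ P₂).restrictScalars K = P₁.restrictScalars K ⊔ P₂.restrictScalars K := by
        ext z
        simp only [Submodule.restrictScalars_mem, Submodule.mem_sup]
      rw [this]
      infer_instance
  have htop := key ⊤ Module.Finite.fg_top
  have e : ((⊤ : Submodule R T).restrictScalars K) = ⊤ := by
    ext; simp
  rw [e] at htop
  exact (LinearEquiv.finiteDimensional (Submodule.topEquiv (R := K) (M := T)))

/-- For `σ ≠ 0` in an invertible module `N` over a ring with (FL), `N ⧸ R σ` is
finite-dimensional. -/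
theorem finiteDimensional_quotient_span
    (hFL : ∀ a : R, a ≠ 0 → FiniteDimensional K (R ⧸ Ideal.span {a}))
    {N : Type*} [AddCommGroup N] [Module R N] [Module K N] [IsScalarTower K R N]
    [Module.Invertible R N] {σ : N} (hσ : σ ≠ 0) :
    FiniteDimensional K (N ⧸ Submodule.span R {σ}) := by
  apply finiteDimensional_of_torsion hFL
  intro y
  obtain ⟨x, rfl⟩ := Submodule.Quotient.mk_surjective _ y
  obtain ⟨a, ha, hax⟩ := exists_ne_zero_smul_mem_span (R := R) hσ x
  refine ⟨a, ha, ?_⟩
  rw [← Submodule.Quotient.mk_smul, Submodule.Quotient.mk_eq_zero]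
  exact hax

end FL

end Fermat.Agent.Jac.Riemann4.Torsion
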