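/-
Fermat/Agent/Jac/Riemann4/Section.lean  (helper4, brick A2 Riemann)

Uniform vanishing of `H¹`:  let `n₀` be such that `H¹(O(n₀·D∞)) = 0`.  If a line bundle `L` admits a
nonzero global section of `L(-n₀·D∞)`, then `H¹(L) = 0`.

(The section gives a morphism `O(n₀·D∞) → L` whose cokernel is a finitely generated torsion module
on one of the charts, hence finite-dimensional; so `H¹(O(n₀·D∞)) → H¹(L)` is surjective.)

Hypothesis on the charts: (FL) `R_i ⧸ (a)` is finite-dimensional over `K` for all `a ≠ 0`.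
-/
import Fermat.Agent.Jac.Riemann4.Modification
import Fermat.Agent.Jac.Riemann4.PoleTwist
import Fermat.Agent.Jac.Riemann4.Torsion

set_option autoImplicit false
set_option linter.unusedSectionVars false

universe u

namespace Fermat.Agent.Jac.Riemann4.Section

open Function Module Fermat.Agent.Jac Fermat.Agent.Jac.Riemann4 Fermat.Agent.Jac.Riemann4.Basic
  Fermat.Agent.Jac.Riemann4.PoleTwist Fermat.Agent.Jac.Riemann4.Modification

variable {K R0 R1 R01 : Type u} [Field K] [CommRing R0] [CommRing R1] [CommRing R01]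
  [Algebra K R0] [Algebra K R1] [Algebra K R01] [Algebra R0 R01] [Algebra R1 R01]
  [IsScalarTower K R0 R01] [IsScalarTower K R1 R01]

/-- A pair `(σ0, σ1)` with `r0 σ0 = t^{-n} • r1 σ1` (a global section of `L(-n·D∞)`) defines a
morphism `O(n·D∞) → L`. -/
def homOfSection (c : TwoChart K R0 R1 R01) (L : QC2 K R0 R1 R01) (n : ℤ) (σ0 : L.N0) (σ1 : L.N1)
    (h : L.r0 σ0 = ((tUnit c ^ (-n) : R01ˣ) : R01) • L.r1 σ1) :
    QC2.Hom (twistInf c (QC2.unit : QC2 K R0 R1 R01) n) L where
  f0 := LinearMap.toSpanSingleton R0 L.N0 σ0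
  f1 := LinearMap.toSpanSingleton R1 L.N1 σ1
  f01 := LinearMap.toSpanSingleton R01 L.N01 (L.r0 σ0)
  comm0 := fun (a : R0) => by
    show (algebraMap R0 R01 a) • L.r0 σ0 = L.r0 (a • σ0)
    rw [algebraMap_smul, map_smul]
  comm1 := fun (b : R1) => by
    show (((tUnit c ^ n : R01ˣ) : R01) • algebraMap R1 R01 b) • L.r0 σ0 = L.r1 (b • σ1)
    have e : ((tUnit c ^ n : R01ˣ) : R01) • ((tUnit c ^ (-n) : R01ˣ) : R01) • L.r1 σ1 = L.r1 σ1 := by
      rw [smul_smul, ← Units.val_mul, ← zpow_add, add_neg_cancel, zpow_zero, Units.val_one, one_smul]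
    rw [h, smul_eq_mul, mul_comm, mul_smul, e, algebraMap_smul, map_smul]

/-- **Uniform vanishing.**  If `H¹(O(n₀·D∞)) = 0` and `L` is a line bundle such that `L(-n₀·D∞)` has a
nonzero global section, then `H¹(L) = 0`. -/
theorem subsingleton_H1_of_section (c : TwoChart K R0 R1 R01)
    (hFL0 : ∀ a : R0, a ≠ 0 → FiniteDimensional K (R0 ⧸ Ideal.span {a}))
    (hFL1 : ∀ a : R1, a ≠ 0 → FiniteDimensional K (R1 ⧸ Ideal.span {a}))
    (L : QC2 K R0 R1 R01) (hL : L.IsLine) (n0 : ℤ)
    (hO : Subsingleton (twistInf c (QC2.unit : QC2 K R0 R1 R01) n0).H1)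
    (σ : (twistInf c L (-n0)).H0) (hσ : σ ≠ 0) : Subsingleton L.H1 := by
  haveI := hL.inv0
  haveI := hL.inv1
  obtain ⟨⟨σ0, σ1⟩, hmem⟩ := σ
  have hd : (twistInf c L (-n0)).d (σ0, σ1) = 0 := hmem
  rw [twistInf_d_apply, sub_eq_zero] at hd
  let ι := homOfSection c L n0 σ0 σ1 hd
  have hsurj : Surjective (mapH1 ι) := by
    by_cases h0 : σ0 = 0
    · have h1 : σ1 ≠ 0 := by
        rintro rfl
        apply hσ
        apply Subtype.ext
        show (σ0, (0 : L.N1)) = 0
        rw [h0]; rfl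
      haveI : FiniteDimensional K (L.N1 ⧸ LinearMap.range ι.f1) := by
        show FiniteDimensional K (L.N1 ⧸ LinearMap.range (LinearMap.toSpanSingleton R1 L.N1 σ1))
        rw [LinearMap.range_toSpanSingleton]
        exact Torsion.finiteDimensional_quotient_span hFL1 h1
      exact mapH1_surjective_of_finiteDimensional' c ι
    · haveI : FiniteDimensional K (L.N0 ⧸ LinearMap.range ι.f0) := by
        show FiniteDimensional K (L.N0 ⧸ LinearMap.range (LinearMap.toSpanSingleton R0 L.N0 σ0))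
        rw [LinearMap.range_toSpanSingleton]
        exact Torsion.finiteDimensional_quotient_span hFL0 h0
      exact mapH1_surjective_of_finiteDimensional c ι
  exact hsurj.subsingleton

end Fermat.Agent.Jac.Riemann4.Section
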