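/-
Fermat/Agent/Jac/Riemann4/SectionRank.lean  (helper4, programme JAC, brick R2a piece (b))

The dimension count of blueprint 271, Claims 1-5 over a FIELD `K`:
for a line bundle `M` on a two-chart curve `c` over `K` (charts domains, finite projective over the
line), with `χ(M) = 1` and `H¹(M(-Q_i)) = 0` for a family of points at infinity exhausting `s = 0`,
the quotient of chart 0 by the section ideal of `M` is finite-dimensional of dimension
`g = dim H¹(O)`.
-/
import Fermat.Agent.Jac.SectionOfChart14.Full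
import Fermat.Agent.Jac.Chart43.DivisorOfSection
import Fermat.Agent.Jac.AlgChart76.HilbCore
import Fermat.Agent.Jac.LineOps39.OverLine
import Fermat.Agent.Jac.DegAdd79

set_option autoImplicit false
set_option linter.unusedSectionVars false
set_option linter.style.haveILetI false

universe u

open TensorProduct

namespace Fermat.Agent.Jac.Riemann4.SectionRank

open Fermat.Agent.Jac.LineOps39 Fermat.Agent.Jac.SectionOfChart14

variable {K R0 R1 R01 : Type u} [Field K] [CommRing R0] [CommRing R1] [CommRing R01]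
  [Algebra K R0] [Algebra K R1] [Algebra K R01] [Algebra R0 R01] [Algebra R1 R01]
  [IsScalarTower K R0 R01] [IsScalarTower K R1 R01]

/-- The restriction `r1` of a line bundle does not kill nonzero elements (chart 1 a domain). -/
lemma r1_ne_zero [IsDomain R1] [Nontrivial R01] (c : TwoChart K R0 R1 R01)
    {L : QC2 K R0 R1 R01} (hL : L.IsLine) (x : L.N1) (hx : x ≠ 0) : L.r1 x ≠ 0 := by
  haveI := hL.inv1
  have : IsLocalization (Submonoid.powers c.s) R01 := c.away1
  have : IsLocalizedModule (Submonoid.powers c.s) L.r1 :=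
    (isLocalizedModule_iff_isBaseChange (Submonoid.powers c.s) R01 L.r1).2 L.bc1
  intro h
  obtain ⟨⟨_, k, rfl⟩, hk⟩ := (IsLocalizedModule.eq_zero_iff (Submonoid.powers c.s) L.r1).mp h
  have hk' : c.s ^ k • x = 0 := hk
  have h0 : c.s ^ k = 0 :=
    DegAdd79Alg.toSpanSingleton_injective x hx (by simpa using hk')
  exact pow_ne_zero k (DegAdd79.s_ne_zero c) h0

/-- **Claims 1-5 over a field, abstract form.**  `g := finrank K (QC2.unit).H1`. -/
theorem finrank_quotient_sectionIdeal [IsDomain R0] [IsDomain R1] [Nontrivial R01]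
    (c : TwoChart K R0 R1 R01) (hc : c.FiniteProjOverLine) {M : QC2 K R0 R1 R01} (hM : M.IsLine)
    (hchi : ∀ p : PrimeSpectrum K, M.chi p = 1) {ι : Type*} (pts : InfPoints c ι) (i₀ : ι)
    (ρ : Fib M (pts.I i₀) ≃ₗ[K] K)
    (h1 : ∀ i, Subsingleton (downTwist c M (ptPair c (pts.I i))).H1) :
    Module.Finite K (R0 ⧸ AlgChart76.sectionIdeal M) ∧
      Module.finrank K (R0 ⧸ AlgChart76.sectionIdeal M) =
        Module.finrank K (QC2.unit : QC2 K R0 R1 R01).H1 := by
  have hF := finiteOverLine_of_isLine c hc hM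
  have hP := projOverLine_of_isLine c hc hM
  haveI := hM.inv0
  haveI := hM.inv1
  obtain ⟨hH1, -, σ, hρ, hgen', -, -, -, q3, -⟩ :=
    section_of_chart c M hF hP hchi pts i₀ ρ h1
  have hgen : ∀ τ : M.H0, ∃ a : K, τ = a • σ := fun τ => ⟨_, hgen' τ⟩
  -- the two components of `σ` are nonzero
  have hσ1 : σ.1.2 ≠ 0 := by
    intro h
    rw [h] at hρ
    simp at hρ
  have hσ0 : σ.1.1 ≠ 0 := by
    intro h
    have h2 : M.r1 σ.1.2 = 0 := by rw [← H0_compat, h, map_zero]
    exact r1_ne_zero c hM _ hσ1 h2
  have i0' : Function.Injective (LinearMap.toSpanSingleton R0 M.N0 σ.1.1) :=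
    DegAdd79Alg.toSpanSingleton_injective σ.1.1 hσ0
  have i1' : Function.Injective (LinearMap.toSpanSingleton R1 M.N1 σ.1.2) :=
    DegAdd79Alg.toSpanSingleton_injective σ.1.2 hσ1
  have i0 : Function.Injective (homOfSection M σ).f0 := i0'
  have i1 : Function.Injective (homOfSection M σ).f1 := i1'
  have i01 : Function.Injective (homOfSection M σ).f01 := f01_injective_of c (homOfSection M σ) i0
  have hse := shortExact_section c σ i0 i1 i01
  have hev : ∀ i, Function.Surjective (ev M (pts.I i)) :=
    fun i => ev_surjective c M (pts.s_mem i) (h1 i)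
  have e := Q0EquivH1Unit c hF σ hgen pts.I hev pts.exhaust hH1 hse
  obtain ⟨hfin, hrank⟩ := Chart43.finrank_quotient_contentIdeal M hM σ q3
  have hI : AlgChart76.sectionIdeal M = Chart43.contentIdeal R0 σ.1.1 :=
    Chart43.span_dual_apply_eq_contentIdeal M σ hgen
  rw [hI]
  exact ⟨hfin, hrank.trans e.finrank_eq⟩

end Fermat.Agent.Jac.Riemann4.SectionRank
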